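import Fermat.Agent.GD.Engine
import Fermat.Agent.Galois.Places
import Fermat.Prelude.Def_GroupCohomology_ContinuousUnramified

/-!
# The Galois group of `ℚ`, its decomposition groups and the idele class modules
-/

set_option autoImplicit false

noncomputable section

namespace Fermat.Agent.GD

open Fermat.Agent.Galois (GQ)
open ExtCitation

local notation "ℚb" => AlgebraicClosure ℚ

/-- The action on a multiplicative module, written additively. -/
instance additiveAction {G A : Type*} [Monoid G] [Monoid A] [MulDistribMulAction G A] :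
    DistribMulAction G (Additive A) where
  smul g a := Additive.ofMul (g • a.toMul)
  one_smul a := congrArg Additive.ofMul (one_smul G a.toMul)
  mul_smul g h a := congrArg Additive.ofMul (mul_smul g h a.toMul)
  smul_zero g := congrArg Additive.ofMul (smul_one g)
  smul_add g a b := congrArg Additive.ofMul (smul_mul' g a.toMul b.toMul)

theorem finiteIndex_fixingSubgroup (F : IntermediateField ℚ ℚb) [FiniteDimensional ℚ F] :
    F.fixingSubgroup.FiniteIndex :=
  have : Finite (GQ ⧸ F.fixingSubgroup) :=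
    Subgroup.quotient_finite_of_isOpen _ F.fixingSubgroup_isOpen
  Subgroup.finiteIndex_of_finite_quotient

theorem fixingSubgroup_bot_normal : (⊥ : IntermediateField ℚ ℚb).fixingSubgroup.Normal := by
  rw [IntermediateField.fixingSubgroup_bot]; infer_instance

/-- The levels of fields unramified outside `T`. -/
def LT (T : Finset Nat.Primes) : LevelGroup.{0} where
  G := GQ
  IsLevel N := ∃ F : IntermediateField ℚ ℚb,
    F.IsUnramifiedOutside T ∧ N = F.fixingSubgroup ∧ N.Normal
  normal := fun _ ⟨_, _, _, h⟩ => h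
  finiteIndex := by
    rintro _ ⟨F, hT, rfl, -⟩
    have := hT.1
    exact finiteIndex_fixingSubgroup F
  exists_level := ⟨_, ⊥, IntermediateField.isUnramifiedOutside_bot T, rfl,
    fixingSubgroup_bot_normal⟩
  inf := by
    rintro _ _ ⟨F, hF, rfl, hn⟩ ⟨F', hF', rfl, hn'⟩
    exact ⟨F ⊔ F', hF.sup hF', IntermediateField.fixingSubgroup_sup.symm, inferInstance⟩

/-- All levels. -/
def LQ : LevelGroup.{0} where
  G := GQ
  IsLevel N := ∃ F : IntermediateField ℚ ℚb,
    FiniteDimensional ℚ F ∧ N = F.fixingSubgroup ∧ N.Normal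
  normal := fun _ ⟨_, _, _, h⟩ => h
  finiteIndex := by
    rintro _ ⟨F, hT, rfl, -⟩
    exact finiteIndex_fixingSubgroup F
  exists_level := ⟨_, ⊥, inferInstance, rfl, fixingSubgroup_bot_normal⟩
  inf := by
    rintro _ _ ⟨F, hF, rfl, hn⟩ ⟨F', hF', rfl, hn'⟩
    exact ⟨F ⊔ F', IntermediateField.finiteDimensional_sup F F',
      IntermediateField.fixingSubgroup_sup.symm, inferInstance⟩

/-- Places of `ℚ`; `none` is the archimedean one. -/
abbrev Place : Type := Option Nat.Primes

/-- The chosen place of `ℚ̄` over a prime. -/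
abbrev placeAt (q : Nat.Primes) : ValuationSubring ℚb := ExtCitation.primeLocalPlace q

/-- The chosen decomposition groups. -/
def decomp : Place → Subgroup GQ
  | none => archimedeanDecomposition
  | some q => (placeAt q).decompositionSubgroup ℚ

/-- The levels of a decomposition group. -/
abbrev LD (v : Place) : LevelGroup.{0} := LQ.sub (decomp v)

/-- The places in a finite set and the archimedean one. -/
def placesOf (T : Finset Nat.Primes) : Finset Place := Finset.insertNone T

/-- Functions on places and on the Galois group. -/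
abbrev IdeleFn : Type := Place → GQ → ℚbˣ

instance (T : Finset Nat.Primes) : MulDistribMulAction (LT T).G ℚbˣ :=
  inferInstanceAs (MulDistribMulAction GQ ℚbˣ)

instance (v : Place) : MulDistribMulAction (LD v).G ℚbˣ :=
  inferInstanceAs (MulDistribMulAction (decomp v) ℚbˣ)

/-- Right translation of idele functions. -/
def tr (σ : GQ) : IdeleFn →* IdeleFn where
  toFun f v g := f v (g * σ)
  map_one' := rfl
  map_mul' _ _ := rfl

theorem tr_apply (σ : GQ) (f : IdeleFn) (v : Place) (g : GQ) : tr σ f v g = f v (g * σ) := rfl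

theorem tr_mul (σ τ : GQ) (f : IdeleFn) : tr (σ * τ) f = tr σ (tr τ f) := by
  funext v g
  simp only [tr_apply, mul_assoc]

/-- Ideles of the fields unramified outside `T`. -/
def idele (T : Finset Nat.Primes) : Subgroup IdeleFn where
  carrier := {f | (∀ v, ∀ d ∈ decomp v, ∀ g, f v (d * g) = d • f v g) ∧
    (∃ N, (LT T).IsLevel N ∧ ∀ v g, ∀ s : GQ, s ∈ N → f v (g * s) = f v g) ∧
    {q : Nat.Primes | ∃ g, f (some q) g ∉ (placeAt q).unitGroup}.Finite}
  one_mem' := ⟨fun v d _ g => (smul_one d).symm,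
    ⟨_, (LT T).exists_level.choose_spec, fun _ _ _ _ => rfl⟩, by simp [one_mem]⟩
  mul_mem' := by
    rintro f f' ⟨h1, ⟨N, hN, h2⟩, h3⟩ ⟨h1', ⟨N', hN', h2'⟩, h3'⟩
    refine ⟨fun v d hd g => ?_, ⟨N ⊓ N', (LT T).inf N N' hN hN', fun v g s hs => ?_⟩,
      (h3.union h3').subset fun q ⟨g, hg⟩ => ?_⟩
    · simp only [Pi.mul_apply, h1 v d hd g, h1' v d hd g, smul_mul']
    · simp only [Pi.mul_apply, h2 v g s hs.1, h2' v g s hs.2]
    · by_contra hc
      simp only [Set.mem_union, Set.mem_setOf_eq, not_or, not_exists, not_not] at hc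
      exact hg (mul_mem (hc.1 g) (hc.2 g))
  inv_mem' := by
    rintro f ⟨h1, ⟨N, hN, h2⟩, h3⟩
    refine ⟨fun v d hd g => ?_, ⟨N, hN, fun v g s hs => ?_⟩, h3.subset fun q ⟨g, hg⟩ => ?_⟩
    · simp only [Pi.inv_apply, h1 v d hd g, smul_inv']
    · simp only [Pi.inv_apply, h2 v g s hs]
    · exact ⟨g, fun h => hg (inv_mem h)⟩

theorem tr_mem_idele {T : Finset Nat.Primes} (σ : GQ) {f : IdeleFn} (hf : f ∈ idele T) :
    tr σ f ∈ idele T := by
  obtain ⟨h1, ⟨N, hN, h2⟩, h3⟩ := hf
  have := (LT T).normal N hN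
  refine ⟨fun v d hd g => ?_, ⟨N, hN, fun v g s hs => ?_⟩, h3.subset fun q ⟨g, hg⟩ => ⟨g * σ, hg⟩⟩
  · show f v (d * g * σ) = d • f v (g * σ)
    rw [mul_assoc, h1 v d hd]
  · show f v (g * s * σ) = f v (g * σ)
    rw [show g * s * σ = g * σ * (σ⁻¹ * s * σ) by group,
      h2 v _ _ (by simpa using! this.conj_mem s hs σ⁻¹)]

instance ideleAction (T : Finset Nat.Primes) : MulDistribMulAction (LT T).G (idele T) where
  smul σ f := ⟨tr σ f.1, tr_mem_idele σ f.2⟩
  one_smul f := Subtype.ext (funext fun v => funext fun g => congrArg (f.1 v) (mul_one g))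
  mul_smul σ τ f := Subtype.ext (tr_mul σ τ f.1)
  smul_one σ := Subtype.ext (map_one (tr σ))
  smul_mul σ f f' := Subtype.ext (map_mul (tr σ) f.1 f'.1)

/-- The diagonal. -/
def diag : ℚbˣ →* IdeleFn where
  toFun x _ g := g • x
  map_one' := funext fun _ => funext fun g => smul_one g
  map_mul' x y := funext fun _ => funext fun g => smul_mul' g x y

/-- Principal ideles. -/
def principal (T : Finset Nat.Primes) : Subgroup IdeleFn :=
  ({ carrier := {x | ∃ N, (LT T).IsLevel N ∧ ∀ s : GQ, s ∈ N → s • x = x}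
     one_mem' := ⟨_, (LT T).exists_level.choose_spec, fun s _ => smul_one _⟩
     mul_mem' := by
       rintro x y ⟨N, hN, h⟩ ⟨N', hN', h'⟩
       refine ⟨N ⊓ N', (LT T).inf N N' hN hN', fun s hs => ?_⟩
       rw [smul_mul', h s hs.1, h' s hs.2]
     inv_mem' := by
       rintro x ⟨N, hN, h⟩
       exact ⟨N, hN, fun s hs => by rw [smul_inv', h s hs]⟩ } : Subgroup ℚbˣ).map diag

/-- Units away from `T`. -/
def unitsOut (T : Finset Nat.Primes) : Subgroup IdeleFn where
  carrier := {f | (∀ g, f none g = 1) ∧ (∀ q ∈ T, ∀ g, f (some q) g = 1) ∧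
    ∀ q g, f (some q) g ∈ (placeAt q).unitGroup}
  one_mem' := ⟨fun _ => rfl, fun _ _ _ => rfl, fun _ _ => one_mem _⟩
  mul_mem' := fun hf hf' => ⟨fun g => by simp [hf.1 g, hf'.1 g],
    fun q hq g => by simp [hf.2.1 q hq g, hf'.2.1 q hq g],
    fun q g => mul_mem (hf.2.2 q g) (hf'.2.2 q g)⟩
  inv_mem' := fun hf => ⟨fun g => by simp [hf.1 g], fun q hq g => by simp [hf.2.1 q hq g],
    fun q g => inv_mem (hf.2.2 q g)⟩

/-- The trivial classes. -/
def classKer (T : Finset Nat.Primes) : Subgroup (idele T) :=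
  (principal T ⊔ unitsOut T).subgroupOf (idele T)

theorem smul_mem_classKer {T : Finset Nat.Primes} (σ : GQ) {f : idele T}
    (hf : f ∈ classKer T) : (⟨tr σ f.1, tr_mem_idele σ f.2⟩ : idele T) ∈ classKer T := by
  rw [classKer, Subgroup.mem_subgroupOf, Subgroup.mem_sup] at hf ⊢
  obtain ⟨_, ⟨x, ⟨N, hN, hx⟩, rfl⟩, u, hu, h⟩ := hf
  refine ⟨diag (σ • x), ⟨_, ⟨N, hN, fun s hs => ?_⟩, rfl⟩, tr σ u,
    ⟨fun g => hu.1 _, fun q hq g => hu.2.1 q hq _, fun q g => hu.2.2 q _⟩, ?_⟩
  · have h1 : σ⁻¹ * s * σ ∈ N := by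
      simpa using! ((LT T).normal N hN).conj_mem s hs σ⁻¹
    have h2 : (σ⁻¹ * s * σ) • x = x := hx _ h1
    rw [mul_smul, mul_smul, inv_smul_eq_iff] at h2
    exact h2
  · show _ = tr σ f.1
    rw [← h, map_mul]
    congr 1

/-- The idele class module. -/
def ClassGrp (T : Finset Nat.Primes) : Type := idele T ⧸ classKer T

instance classCommGroup (T : Finset Nat.Primes) : CommGroup (ClassGrp T) :=
  inferInstanceAs (CommGroup (idele T ⧸ classKer T))

/-- The quotient map onto the classes. -/
def mkClass (T : Finset Nat.Primes) : idele T →* ClassGrp T := QuotientGroup.mk' (classKer T)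

theorem mkClass_surjective (T : Finset Nat.Primes) : Function.Surjective (mkClass T) :=
  QuotientGroup.mk'_surjective _

instance classAction (T : Finset Nat.Primes) : MulDistribMulAction (LT T).G (ClassGrp T) where
  smul σ := QuotientGroup.map (classKer T) (classKer T)
    (MulDistribMulAction.toMonoidHom (idele T) σ) fun f hf => by
      rw [Subgroup.mem_comap]
      exact smul_mem_classKer (σ : GQ) hf
  one_smul := by
    rintro ⟨f⟩
    exact congrArg QuotientGroup.mk (one_smul _ f)
  mul_smul σ τ := by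
    rintro ⟨f⟩
    exact congrArg QuotientGroup.mk (mul_smul σ τ f)
  smul_one σ := map_one _
  smul_mul σ a b := map_mul _ a b

/-- The idele class module, written additively. -/
abbrev ClassT (T : Finset Nat.Primes) : Type := Additive (ClassGrp T)

instance (T : Finset Nat.Primes) : AddCommGroup (ClassT T) := Additive.addCommGroup

instance (T : Finset Nat.Primes) : DistribMulAction (LT T).G (ClassT T) := additiveAction

/-- The class of an idele. -/
def toClass (T : Finset Nat.Primes) (f : idele T) : ClassT T := Additive.ofMul (mkClass T f)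

/-- The local component at the base point. -/
def locEval {T : Finset Nat.Primes} (v : Place) (f : idele T) : Additive ℚbˣ :=
  Additive.ofMul (f.1 v 1)

/-- Restriction of a two-cochain of ideles to a decomposition group. -/
def locCochain {T : Finset Nat.Primes} (v : Place) (z : GQ × GQ → idele T) :
    (LD v).G × (LD v).G → Additive ℚbˣ :=
  fun y => locEval v (z ((y.1 : decomp v).1, (y.2 : decomp v).1))

/-- The class group of `T`-ideals vanishes for the fields below a level. -/
def IsBig (T : Finset Nat.Primes) (N : Subgroup GQ) : Prop :=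
  ∀ H, N ≤ H → ∀ f : idele T, (∀ h ∈ H, tr h f.1 = f.1) →
    ∃ x : ℚbˣ, (∀ h ∈ H, (h : GQ) • x = x) ∧
      ∀ q ∉ T, ∀ g : GQ, f.1 (some q) g / (g • x) ∈ (placeAt q).unitGroup

/-- The units away from `T` fixed by a subgroup. -/
def sUnits (T : Finset Nat.Primes) (H : Subgroup GQ) : Subgroup ℚbˣ where
  carrier := {x | (∀ h ∈ H, (h : GQ) • x = x) ∧ ∀ q ∉ T, ∀ g : GQ, g • x ∈ (placeAt q).unitGroup}
  one_mem' := ⟨fun h _ => smul_one h, fun q _ g => by rw [smul_one]; exact one_mem _⟩
  mul_mem' := fun hx hy => ⟨fun h hh => by rw [smul_mul', hx.1 h hh, hy.1 h hh],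
    fun q hq g => by rw [smul_mul']; exact mul_mem (hx.2 q hq g) (hy.2 q hq g)⟩
  inv_mem' := fun hx => ⟨fun h hh => by rw [smul_inv', hx.1 h hh],
    fun q hq g => by rw [smul_inv']; exact inv_mem (hx.2 q hq g)⟩

/-- The places of the fixed field of `H` over a place. -/
abbrev PlacesAbove (v : Place) (H : Subgroup GQ) : Type :=
  DoubleCoset.Quotient (decomp v : Set GQ) (H : Set GQ)

/-- All `p`-th roots of unity are fixed. -/
def FixesMu (p : ℕ) (H : Subgroup GQ) : Prop :=
  ∀ h ∈ H, ∀ μ : ℚb, μ ^ p = 1 → h μ = μ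

end Fermat.Agent.GD
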