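import Fermat.Agent.GD.Bases.Defs
import Fermat.Agent.GD.Bases.Data
import Fermat.Agent.GD.Bases.DualityLocal
import Fermat.Agent.GD.Bases.DualityGlobal
import Fermat.Agent.GD.Bases.EulerArch
import Fermat.Agent.GD.Bases.Euler

/-!
# Duality and Euler characteristics over `ℚ` (interface)
-/

set_option autoImplicit false

noncomputable section

namespace Fermat.Agent.GD

open Fermat.Agent.Galois (GQ)

local notation "ℚb" => AlgebraicClosure ℚ

variable (p : ℕ) [Fact p.Prime]

/-- Class data exist. -/
theorem exists_classData (hp2 : p ≠ 2) : Nonempty (ClassData p) := by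
  exact ⟨classData p hp2⟩

variable {p} (hp2 : p ≠ 2) (D : ClassData p)

include hp2

/-- Global duality for finite modules killed by `p`. -/
theorem duality_global (T : Finset Nat.Primes) (hT : (⟨p, Fact.out⟩ : Nat.Primes) ∈ T)
    (N : Subgroup (LT T).G) (hN : (LT T).IsLevel N) (hμ : FixesMu p N) (hbig : IsBig T N)
    (M : Type) [AddCommGroup M] [Finite M] [DistribMulAction (LT T).G M]
    (hp : ∀ m : M, p • m = 0) (hMN : ∀ s ∈ N, ∀ m : M, s • m = m) (hM : (LT T).Smooth M) :
    (D.glob T hT).Duality (LT T) M hM := by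
  exact duality_global_eq hp2 D hT N hN hμ hbig M hp hMN hM

/-- Local duality for finite modules killed by `p`. -/
theorem duality_local (v : Place) (M : Type) [AddCommGroup M] [Finite M]
    [DistribMulAction (LD v).G M] (hp : ∀ m : M, p • m = 0) (hM : (LD v).Smooth M) :
    (D.loc v).Duality (LD v) M hM := by
  exact duality_local_eq hp2 D v M hp hM

/-- The global Euler characteristic. -/
theorem euler_global (T : Finset Nat.Primes) (hT : (⟨p, Fact.out⟩ : Nat.Primes) ∈ T)
    (N : Subgroup (LT T).G) (hN : (LT T).IsLevel N) (hμ : FixesMu p N) (hbig : IsBig T N)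
    (M : Type) [AddCommGroup M] [Finite M] [DistribMulAction (LT T).G M]
    (hp : ∀ m : M, p • m = 0) (hMN : ∀ s ∈ N, ∀ m : M, s • m = m) :
    Finite ((LT T).H1 M) ∧ Finite ((LT T).HomC M (ClassT T)) ∧
      Nat.card ((LT T).H1 M) =
        Nat.card ((LT T).fixed M) * Nat.card ((LT T).HomC M (ClassT T)) := by
  obtain ⟨D⟩ := exists_classData p hp2
  exact euler_global_eq hp2 D T hT N hN hμ hbig
    (fun M _ _ _ h1 h2 hM => duality_global hp2 D T hT N hN hμ hbig M h1 h2 hM) M hp hMN

/-- The local Euler characteristic at a prime. -/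
theorem euler_local (q : Nat.Primes) (M : Type) [AddCommGroup M] [Finite M]
    [DistribMulAction (LD (some q)).G M] (hp : ∀ m : M, p • m = 0)
    (hM : (LD (some q)).Smooth M) :
    Finite ((LD (some q)).H1 M) ∧ Finite ((LD (some q)).HomC M (Additive ℚbˣ)) ∧
      Nat.card ((LD (some q)).H1 M) =
        Nat.card ((LD (some q)).fixed M) * Nat.card ((LD (some q)).HomC M (Additive ℚbˣ)) *
          (if (q : ℕ) = p then Nat.card M else 1) := by
  obtain ⟨D⟩ := exists_classData p hp2
  exact euler_local_eq D q (fun M _ _ _ h1 hM => duality_local hp2 D (some q) M h1 hM) M hp hM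

/-- At the archimedean place there is no cohomology. -/
theorem h1_archimedean (M : Type) [AddCommGroup M] [Finite M]
    [DistribMulAction (LD none).G M] (hp : ∀ m : M, p • m = 0)
    (hM : (LD none).Smooth M) (f : (LD none).G → M) (hf : f ∈ (LD none).Z1 M) :
    f ∈ (LD none).B1 M := by
  exact h1_archimedean_eq hp2 M hp f hf

end Fermat.Agent.GD
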