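import Fermat.Agent.GD.Local.Defs
import Fermat.Agent.GD.Local.NormIndex
import Fermat.Agent.GD.Local.H90
import Fermat.Agent.GD.Local.UnitsH2
import Fermat.Agent.GD.Local.Classes
import Fermat.Agent.GD.Local.Arch
import Fermat.Agent.GD.Local.HomCount

/-!
# The henselian local fields inside `ℚ̄` (interface)

For an open subgroup `H` of a decomposition group the field is the fixed field of `H`.
-/

set_option autoImplicit false

noncomputable section

namespace Fermat.Agent.GD

local notation "ℚb" => AlgebraicClosure ℚ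

variable (p : ℕ) [Fact p.Prime]

/-- `H¹(H, ℚ̄ˣ) = 0`. -/
theorem local_h1 (v : Place) (H : Subgroup (LD v).G) (hH : (LD v).IsOpen H) :
    ∀ f ∈ ((LD v).sub H).Z1 (Additive ℚbˣ), f ∈ ((LD v).sub H).B1 (Additive ℚbˣ) := by
  exact local_h1_eq v H hH

/-- The index of the `p`-th powers of a local field containing the roots of unity. -/
theorem card_local_powers (q : Nat.Primes) (H : Subgroup (LD (some q)).G)
    (hH : (LD (some q)).IsOpen H)
    (hμ : ∀ h ∈ H, ∀ μ : ℚbˣ, μ ^ p = 1 → h • μ = μ) :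
    Nat.card (fixedUnits H ⧸ powers p (fixedUnits H)) = p ^ (2 + localExp p (some q) H) := by
  exact card_powers_eq hH hμ

/-- The norm index of a cyclic extension of degree `p` of a local field is `p`. -/
theorem card_local_norm (q : Nat.Primes) (H H' : Subgroup (LD (some q)).G)
    (hH' : (LD (some q)).IsOpen H') (hle : H' ≤ H) (hn : (H'.subgroupOf H).Normal)
    (hidx : (H'.subgroupOf H).index = p) :
    Nat.card (fixedUnits H ⧸ Subgroup.closure {x : fixedUnits H |
      ∃ y ∈ fixedUnits H', (x : ℚbˣ) =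
        ∏ᶠ s : H ⧸ H'.subgroupOf H, ((s.out : H) : (LD (some q)).G) • y}) = p := by
  exact card_norm_eq H hH' hle hn hidx

/-- The classes killed by `p` in `H²(H, ℚ̄ˣ)` form at most one line. -/
theorem local_h2_line (hp2 : p ≠ 2) (v : Place) (H : Subgroup (LD v).G) (hH : (LD v).IsOpen H)
    (z z' : ((LD v).sub H).Z2 (Additive ℚbˣ))
    (hz : ((LD v).sub H).IsB2 (Additive ℚbˣ) (p • z.1))
    (hz' : ((LD v).sub H).IsB2 (Additive ℚbˣ) (p • z'.1))
    (hne : ¬ ((LD v).sub H).IsB2 (Additive ℚbˣ) z.1) :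
    ∃ k : ℕ, ((LD v).sub H).IsB2 (Additive ℚbˣ) (z'.1 - k • z.1) := by
  cases v with
  | none =>
    exact absurd (isB2_none_of_odd ((Fact.out : p.Prime).odd_of_ne_two hp2) H z.2 hz) hne
  | some q =>
    have hx : p • h2mk H z = 0 := by
      rw [← map_nsmul]; exact (h2mk_eq_zero _).mpr hz
    have hy : p • h2mk H z' = 0 := by
      rw [← map_nsmul]; exact (h2mk_eq_zero _).mpr hz'
    obtain ⟨k, hk⟩ := h2_line_eq hH hx hy (fun h => hne ((h2mk_eq_zero z).mp h))
    refine ⟨k, (h2mk_eq_zero (z' - k • z)).mp ?_⟩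
    rw [map_sub, map_nsmul]
    exact sub_eq_zero.mpr hk

/-- A class of `H²(H, ℚ̄ˣ)` killed by a power of `p` restricts to zero on some open subgroup of
index divisible by no more than that power. -/
theorem local_h2_killed (v : Place) (H : Subgroup (LD v).G) (hH : (LD v).IsOpen H)
    (z : ((LD v).sub H).Z2 (Additive ℚbˣ)) (k : ℕ)
    (hz : ((LD v).sub H).IsB2 (Additive ℚbˣ) (p ^ k • z.1)) :
    ∀ H' : Subgroup (LD v).G, ∀ hle : H' ≤ H, (LD v).IsOpen H' →
      p ^ k ∣ (H'.subgroupOf H).index →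
      ((LD v).sub H').IsB2 (Additive ℚbˣ) (fun y => z.1 (⟨y.1.1, hle y.1.2⟩, ⟨y.2.1, hle y.2.2⟩)) := by
  intro H' hle hH' hidx
  cases v with
  | none => exact res_isB2_none H H' hle z.2 hz hidx
  | some q =>
    have hx : p ^ k • h2mk H z = 0 := by
      rw [← map_nsmul]; exact (h2mk_eq_zero _).mpr hz
    exact (h2mk_eq_zero (resZ hle z)).mp (h2_killed_eq hH hx hle hH' hidx)

/-- At an unramified level, unit cocycles of degree one are coboundaries of units. -/
theorem units_h1 (q : Nat.Primes) (H : Subgroup (LD (some q)).G) (N : Subgroup (LD (some q)).G)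
    (hN : (LD (some q)).IsLevel N)
    (hI : ∀ s : (LD (some q)).G, s.1 ∈ (placeAt q).inertiaSubgroupIn ℚ → s ∈ N) (hle : N ≤ H)
    (f : H → ℚbˣ) (hf : ∀ g h : H, f (g * h) = f g * (g : (LD (some q)).G) • f h)
    (hfN : ∀ g : H, ∀ s : H, (s : (LD (some q)).G) ∈ N → f (g * s) = f g)
    (hu : ∀ g, f g ∈ (placeAt q).unitGroup) :
    ∃ u ∈ (placeAt q).unitGroup, (∀ s ∈ N, s • u = u) ∧
      ∀ g : H, f g = (g : (LD (some q)).G) • u / u := by
  exact units_h1_eq q H N hN hI hle f hf hfN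

/-- At an unramified level, unit cocycles of degree two are coboundaries of units. -/
theorem units_h2 (q : Nat.Primes) (H : Subgroup (LD (some q)).G) (N : Subgroup (LD (some q)).G)
    (hN : (LD (some q)).IsLevel N)
    (hI : ∀ s : (LD (some q)).G, s.1 ∈ (placeAt q).inertiaSubgroupIn ℚ → s ∈ N) (hle : N ≤ H)
    (f : H × H → ℚbˣ)
    (hf : ∀ g h j : H,
      (g : (LD (some q)).G) • f (h, j) * f (g, h * j) = f (g * h, j) * f (g, h))
    (hfN : ∀ g h : H, ∀ s t : H, (s : (LD (some q)).G) ∈ N → (t : (LD (some q)).G) ∈ N →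
      f (g * s, h * t) = f (g, h))
    (hu : ∀ g, f g ∈ (placeAt q).unitGroup) (hfix : ∀ g, ∀ s ∈ N, s • f g = f g) :
    ∃ b : H → ℚbˣ, (∀ g, b g ∈ (placeAt q).unitGroup) ∧
      (∀ g : H, ∀ s : H, (s : (LD (some q)).G) ∈ N → b (g * s) = b g) ∧
      ∀ g h : H, f (g, h) = (g : (LD (some q)).G) • b h / b (g * h) * b g := by
  exact units_h2_eq H N hN hI hle f hf hfN hu hfix

/-- Equivariant maps into the units modulo `p`-th powers. -/
def HomModPowers {G : Type} [Group G] [MulDistribMulAction G ℚbˣ] (H : Subgroup G)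
    (U : Subgroup ℚbˣ) (M : Type) [AddCommGroup M] [DistribMulAction G M] : Type :=
  {φ : M →+ Additive (U ⧸ powers p U) // ∀ h ∈ H, ∀ (m : M) (x y : U),
    φ m = Additive.ofMul (QuotientGroup.mk x) → (y : ℚbˣ) = h • (x : ℚbˣ) →
      φ (h • m) = Additive.ofMul (QuotientGroup.mk y)}

/-- The units modulo `p`-th powers of a local field as a module over a Galois group of order prime
to `p`: the roots of unity, a trivial line and `[K : ℚ_p]` regular modules. -/
theorem card_local_hom (q : Nat.Primes) (H N : Subgroup (LD (some q)).G)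
    (hN : (LD (some q)).IsLevel N) (hle : N ≤ H) (hidx : ¬ p ∣ (N.subgroupOf H).index)
    (hμ : ∀ h ∈ N, ∀ μ : ℚbˣ, μ ^ p = 1 → h • μ = μ)
    (M : Type) [AddCommGroup M] [Finite M] [DistribMulAction (LD (some q)).G M]
    (hp : ∀ m : M, p • m = 0) (hMN : ∀ s ∈ N, ∀ m : M, s • m = m) :
    Nat.card (HomModPowers p H (fixedUnits N) M) =
      Nat.card {φ : M →+ Additive ℚbˣ // ∀ h ∈ H, ∀ m, φ (h • m) = h • φ m} *
        Nat.card {φ : M →+ ZMod p // ∀ h ∈ H, ∀ m, φ (h • m) = φ m} *
        Nat.card M ^ localExp p (some q) H := by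
  exact card_local_hom_eq hN hle hidx hμ hp hMN

end Fermat.Agent.GD
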