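import Mathlib

/-!
# Abstract duality for a class module
-/

set_option autoImplicit false

noncomputable section

namespace Fermat.Agent.GD

universe u v w

/-- A group with a directed family of normal subgroups of finite index, called levels. -/
structure LevelGroup where
  G : Type u
  [grp : Group G]
  IsLevel : Subgroup G → Prop
  normal : ∀ N, IsLevel N → N.Normal
  finiteIndex : ∀ N, IsLevel N → N.FiniteIndex
  exists_level : ∃ N, IsLevel N
  inf : ∀ N N', IsLevel N → IsLevel N' → IsLevel (N ⊓ N')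

attribute [instance] LevelGroup.grp

variable (L : LevelGroup.{u})

/-- A function of one variable factoring through a level. -/
def LevelGroup.Const₁ {X : Type*} (f : L.G → X) : Prop :=
  ∃ N, L.IsLevel N ∧ ∀ g, ∀ s ∈ N, f (g * s) = f g

/-- A function of two variables factoring through a level. -/
def LevelGroup.Const₂ {X : Type*} (f : L.G × L.G → X) : Prop :=
  ∃ N, L.IsLevel N ∧ ∀ g g', ∀ s ∈ N, ∀ s' ∈ N, f (g * s, g' * s') = f (g, g')

variable (M : Type v) [AddCommGroup M] [DistribMulAction L.G M]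
variable (C : Type w) [AddCommGroup C] [DistribMulAction L.G C]

/-- Every point is fixed by a level. -/
def LevelGroup.Smooth : Prop := ∀ m : M, ∃ N, L.IsLevel N ∧ ∀ s ∈ N, s • m = m

/-- The one-cocycle condition. -/
def LevelGroup.IsCocycle₁ (f : L.G → M) : Prop := ∀ g h, f (g * h) = f g + g • f h

/-- The two-cocycle condition. -/
def LevelGroup.IsCocycle₂ (f : L.G × L.G → C) : Prop :=
  ∀ g h j, g • f (h, j) + f (g, h * j) = f (g * h, j) + f (g, h)

theorem LevelGroup.Const₁.comp₂ {X Y Z : Type*} {f : L.G → X} {f' : L.G → Y} (hf : L.Const₁ f)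
    (hf' : L.Const₁ f') (φ : X → Y → Z) : L.Const₁ fun g => φ (f g) (f' g) := by
  obtain ⟨N, hN, h⟩ := hf
  obtain ⟨N', hN', h'⟩ := hf'
  exact ⟨N ⊓ N', L.inf N N' hN hN', fun g s hs => by simp only [h g s hs.1, h' g s hs.2]⟩

theorem LevelGroup.Const₂.comp₂ {X Y Z : Type*} {f : L.G × L.G → X} {f' : L.G × L.G → Y}
    (hf : L.Const₂ f) (hf' : L.Const₂ f') (φ : X → Y → Z) :
    L.Const₂ fun g => φ (f g) (f' g) := by
  obtain ⟨N, hN, h⟩ := hf
  obtain ⟨N', hN', h'⟩ := hf'
  exact ⟨N ⊓ N', L.inf N N' hN hN', fun g g' s hs s' hs' => by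
    simp only [h g g' s hs.1 s' hs'.1, h' g g' s hs.2 s' hs'.2]⟩

theorem LevelGroup.const₁_const {X : Type*} (x : X) : L.Const₁ fun _ => x :=
  ⟨L.exists_level.choose, L.exists_level.choose_spec, fun _ _ _ => rfl⟩

theorem LevelGroup.const₂_const {X : Type*} (x : X) : L.Const₂ fun _ => x :=
  ⟨L.exists_level.choose, L.exists_level.choose_spec, fun _ _ _ _ _ _ => rfl⟩

/-- One-cocycles at some level. -/
def LevelGroup.Z1 : AddSubgroup (L.G → M) where
  carrier := {f | L.Const₁ f ∧ L.IsCocycle₁ M f}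
  zero_mem' := ⟨L.const₁_const 0, fun g h => by simp⟩
  add_mem' := fun ha hb => ⟨ha.1.comp₂ L hb.1 (· + ·), fun g h => by
    simp only [Pi.add_apply, ha.2 g h, hb.2 g h, smul_add]; abel⟩
  neg_mem' := fun ha => ⟨ha.1.comp₂ L ha.1 (fun a _ => -a), fun g h => by
    simp only [Pi.neg_apply, ha.2 g h, smul_neg]; abel⟩

/-- The differential of a constant. -/
def LevelGroup.d₀ : M →+ (L.G → M) where
  toFun m g := g • m - m
  map_zero' := by ext g; simp
  map_add' m m' := by ext g; simp only [smul_add, Pi.add_apply]; abel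

/-- One-coboundaries. -/
def LevelGroup.B1 : AddSubgroup (L.G → M) := (L.d₀ M).range

/-- The first cohomology at all levels. -/
abbrev LevelGroup.H1 : Type (max u v) := L.Z1 M ⧸ (L.B1 M).addSubgroupOf (L.Z1 M)

/-- Equivariant homomorphisms into the class module. -/
def LevelGroup.HomC : AddSubgroup (M →+ C) where
  carrier := {φ | ∀ (g : L.G) m, φ (g • m) = g • φ m}
  zero_mem' := fun g m => by simp
  add_mem' := fun ha hb g m => by simp [ha g m, hb g m, smul_add]
  neg_mem' := fun ha g m => by simp [ha g m, smul_neg]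

/-- Equivariant symmetric cocycles: abelian extensions of `M` by `C` with equivariant section. -/
def LevelGroup.SymZ : AddSubgroup (M → M → C) where
  carrier := {κ | (∀ (g : L.G) a b, κ (g • a) (g • b) = g • κ a b) ∧
    (∀ a b, κ a b = κ b a) ∧ ∀ a b c, κ a b + κ (a + b) c = κ b c + κ a (b + c)}
  zero_mem' := ⟨fun g a b => by simp, fun a b => rfl, fun a b c => by simp⟩
  add_mem' := fun {κ κ'} hκ hκ' => ⟨fun g a b => by simp [hκ.1 g a b, hκ'.1 g a b, smul_add],
    fun a b => by simp [hκ.2.1 a b, hκ'.2.1 a b],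
    fun a b c => by
      simp only [Pi.add_apply]
      rw [add_add_add_comm, hκ.2.2, hκ'.2.2, add_add_add_comm]⟩
  neg_mem' := fun {κ} hκ => ⟨fun g a b => by simp [hκ.1 g a b, smul_neg],
    fun a b => by simp [hκ.2.1 a b],
    fun a b c => by simp only [Pi.neg_apply]; rw [← neg_add, hκ.2.2, neg_add]⟩

/-- Equivariant functions. -/
def LevelGroup.equivariant : AddSubgroup (M → C) where
  carrier := {h | ∀ (g : L.G) m, h (g • m) = g • h m}
  zero_mem' := fun g m => by simp
  add_mem' := fun ha hb g m => by simp [ha g m, hb g m, smul_add]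
  neg_mem' := fun ha g m => by simp [ha g m, smul_neg]

/-- The differential of a function. -/
def LevelGroup.dSym : (M → C) →+ (M → M → C) where
  toFun h a b := h a + h b - h (a + b)
  map_zero' := by ext; simp
  map_add' h h' := by ext; simp only [Pi.add_apply]; abel

/-- The trivial extensions. -/
def LevelGroup.SymB : AddSubgroup (M → M → C) := (L.equivariant M C).map (LevelGroup.dSym M C)

/-- Extensions of `M` by `C`. -/
abbrev LevelGroup.Ext1 : Type (max v w) := L.SymZ M C ⧸ (L.SymB M C).addSubgroupOf (L.SymZ M C)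

/-- Two-cocycles at some level. -/
def LevelGroup.Z2 : AddSubgroup (L.G × L.G → C) where
  carrier := {f | L.Const₂ f ∧ L.IsCocycle₂ C f}
  zero_mem' := ⟨L.const₂_const 0, fun g h j => by simp⟩
  add_mem' := fun ha hb => ⟨ha.1.comp₂ L hb.1 (· + ·), fun g h j => by
    simp only [Pi.add_apply, smul_add]
    rw [add_add_add_comm, ha.2 g h j, hb.2 g h j, add_add_add_comm]⟩
  neg_mem' := fun ha => ⟨ha.1.comp₂ L ha.1 (fun a _ => -a), fun g h j => by
    simp only [Pi.neg_apply, smul_neg]
    rw [← neg_add, ha.2 g h j, neg_add]⟩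

/-- The differential of a one-cochain. -/
def LevelGroup.d₁ : (L.G → C) →+ (L.G × L.G → C) where
  toFun b x := x.1 • b x.2 - b (x.1 * x.2) + b x.1
  map_zero' := by ext; simp
  map_add' b b' := by ext; simp only [Pi.add_apply, smul_add]; abel

/-- A two-coboundary at some level. -/
def LevelGroup.IsB2 (f : L.G × L.G → C) : Prop := ∃ b, L.Const₁ b ∧ L.d₁ C b = f

/-- The cup product of a cocycle and an extension. -/
def LevelGroup.cup (x : L.G → M) (κ : M → M → C) : L.G × L.G → C :=
  fun y => κ (x y.1) (y.1 • x y.2)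

/-- The level group of a subgroup. -/
abbrev LevelGroup.sub (H : Subgroup L.G) : LevelGroup.{u} where
  G := H
  IsLevel N := ∃ N', L.IsLevel N' ∧ N = N'.subgroupOf H
  normal := by
    rintro _ ⟨N, hN, rfl⟩
    have := L.normal N hN
    infer_instance
  finiteIndex := by
    rintro _ ⟨N, hN, rfl⟩
    have := L.finiteIndex N hN
    infer_instance
  exists_level := ⟨_, _, L.exists_level.choose_spec, rfl⟩
  inf := by
    rintro _ _ ⟨N, hN, rfl⟩ ⟨N', hN', rfl⟩
    exact ⟨N ⊓ N', L.inf N N' hN hN', rfl⟩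

instance (H : Subgroup L.G) : DistribMulAction (L.sub H).G C :=
  inferInstanceAs (DistribMulAction H C)

/-- Open subgroups. -/
def LevelGroup.IsOpen (H : Subgroup L.G) : Prop := ∃ N, L.IsLevel N ∧ N ≤ H

/-- Fixed points. -/
def LevelGroup.fixed : Set M := {m | ∀ g : L.G, g • m = m}

/-- The transfer element of `g` at a coset. -/
def LevelGroup.eta (H : Subgroup L.G) (g : L.G) (s : L.G ⧸ H) : H :=
  ⟨(g • s).out⁻¹ * g * s.out, by
    rw [mul_assoc]
    exact QuotientGroup.eq.mp (by
      rw [QuotientGroup.out_eq', ← smul_eq_mul, ← MulAction.Quotient.smul_mk,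
        QuotientGroup.out_eq'])⟩

/-- Corestriction of two-cochains. -/
def LevelGroup.cor₂ (H : Subgroup L.G) (z : H × H → C) : L.G × L.G → C :=
  fun y => ∑ᶠ s : L.G ⧸ H, ((y.1 * y.2) • s).out • z (L.eta H y.1 (y.2 • s), L.eta H y.2 s)

end Fermat.Agent.GD
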