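import Fermat.Agent.GD.GW.Count

/-!
# The Greenberg-Wiles formula
-/

set_option autoImplicit false

noncomputable section

namespace Fermat.Agent.GD

open Fermat.Agent.Galois (GQ)

local notation "ℚb" => AlgebraicClosure ℚ

variable {p : ℕ} [Fact p.Prime] {T : Finset Nat.Primes}
variable {M : Type} [AddCommGroup M] [DistribMulAction GQ M]

local instance : DistribMulAction (LT T).G M := inferInstanceAs (DistribMulAction GQ M)

local instance (v : Place) : DistribMulAction (LD v).G M :=
  inferInstanceAs (DistribMulAction (decomp v) M)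

theorem cardClasses_mul_index (v : Place) (L : AddSubgroup ((LD v).Z1 M))
    (hL : ((LD v).B1 M).addSubgroupOf ((LD v).Z1 M) ≤ L) :
    cardClasses M v L * L.index = (((LD v).B1 M).addSubgroupOf ((LD v).Z1 M)).index :=
  AddSubgroup.relIndex_mul_index hL

theorem cardClasses_top (v : Place) :
    cardClasses M v ⊤ = (((LD v).B1 M).addSubgroupOf ((LD v).Z1 M)).index :=
  AddSubgroup.relIndex_top_right _

theorem ker_toLocal (L : ∀ v : Place, AddSubgroup ((LD v).Z1 M)) :
    (toLocal (T := T) L).ker = ⨅ v ∈ placesOf T, (L v).comap (resCocycle T M v) := by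
  refine le_antisymm (le_iInf₂ fun v hv x hx => ?_) fun x hx => funext fun v => ?_
  · show resCocycle T M v x ∈ L v
    exact (QuotientAddGroup.eq_zero_iff (resCocycle T M v x)).mp (congrFun hx ⟨v, hv⟩)
  · exact (QuotientAddGroup.eq_zero_iff (resCocycle T M v.1 x)).mpr
      ((iInf₂_le v.1 v.2 : (⨅ w ∈ placesOf T, (L w).comap (resCocycle T M w)) ≤ _) hx)

theorem b1_le_ker_toLocal (L : ∀ v : Place, AddSubgroup ((LD v).Z1 M))
    (hL : ∀ v, ((LD v).B1 M).addSubgroupOf ((LD v).Z1 M) ≤ L v) :
    ((LT T).B1 M).addSubgroupOf ((LT T).Z1 M) ≤ (toLocal (T := T) L).ker := by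
  rintro x ⟨m, hm⟩
  funext v
  refine (QuotientAddGroup.eq_zero_iff _).mpr (hL v.1 ⟨m, funext fun d => ?_⟩)
  exact congrFun hm ((d : decomp v.1).1)

/-- The Greenberg-Wiles formula when the places with full condition kill the dual classes. -/
theorem greenberg_wiles (hp2 : p ≠ 2) (D : ClassData p)
    (hT : (⟨p, Fact.out⟩ : Nat.Primes) ∈ T) [Finite M] (hp : ∀ m : M, p • m = 0)
    (N : Subgroup (LT T).G) (hN : (LT T).IsLevel N) (hμ : FixesMu p N) (hbig : IsBig T N)
    (hMN : ∀ s ∈ N, ∀ m : M, s • m = m) (L : ∀ v : Place, AddSubgroup ((LD v).Z1 M))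
    (hL : ∀ v, ((LD v).B1 M).addSubgroupOf ((LD v).Z1 M) ≤ L v)
    (Q : Finset Nat.Primes) (hQ : NoDual D T L Q) :
    Finite (selmerClasses T M L) ∧
      Nat.card (selmerClasses T M L) *
          Nat.card {φ : M →+ Additive ℚbˣ // ∀ (g : GQ) m, φ (g • m) = g • φ m} *
          ∏ v ∈ placesOf T, cardClasses M v ⊤ =
        Nat.card {m : M // ∀ g : GQ, g • m = m} *
          (∏ v ∈ placesOf T, Nat.card ((LD v).HomC M (Additive ℚbˣ))) *
          ∏ v ∈ placesOf T, cardClasses M v (L v) := by
  obtain ⟨hfin, -, heuler⟩ := euler_global hp2 T hT N hN hμ hbig M hp hMN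
  refine ⟨@Finite.of_injective _ _ hfin Subtype.val Subtype.val_injective, ?_⟩
  let B : AddSubgroup ((LT T).Z1 M) := ((LT T).B1 M).addSubgroupOf ((LT T).Z1 M)
  have hsur := toLocal_surjective hp2 D hT hp hN hμ hbig hMN L hL Q hQ
  have hsel : Nat.card (selmerClasses T M L) * ∏ v ∈ placesOf T, (L v).index =
      Nat.card ((LT T).H1 M) := by
    have hker := ker_toLocal (T := T) L
    have h1 : (selmerClasses T M L).index = (toLocal (T := T) L).ker.index := by
      unfold selmerClasses
      rw [← hker]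
      exact AddSubgroup.index_map_eq _ (QuotientAddGroup.mk'_surjective B)
        (by rw [QuotientAddGroup.ker_mk']; exact b1_le_ker_toLocal L hL)
    have h2 : (toLocal (T := T) L).ker.index = ∏ v ∈ placesOf T, (L v).index := by
      rw [AddSubgroup.index_ker, AddMonoidHom.range_eq_top.mpr hsur, AddSubgroup.card_top,
        Nat.card_pi, ← Finset.prod_coe_sort (placesOf T) (fun v => (L v).index)]
      rfl
    rw [← h2, ← h1]
    exact AddSubgroup.card_mul_index _
  have hC : Nat.card {φ : M →+ Additive ℚbˣ // ∀ (g : GQ) m, φ (g • m) = g • φ m} *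
      Nat.card ((LT T).HomC M (ClassT T)) =
        ∏ v ∈ placesOf T, Nat.card ((LD v).HomC M (Additive ℚbˣ)) := by
    rw [← Nat.card_congr (homKerEquiv hp hN hMN), ← Finset.prod_coe_sort, ← Nat.card_pi]
    refine Eq.trans ?_ (card_ker_mul_range (homToClass hN hMN))
    rw [AddMonoidHom.range_eq_top.mpr
        (homToClass_surjective hT hp hN hbig hMN Q hQ.subset hQ.kill), AddSubgroup.card_top]
    rfl
  have hloc : ∏ v ∈ placesOf T, cardClasses M v ⊤ =
      (∏ v ∈ placesOf T, cardClasses M v (L v)) * ∏ v ∈ placesOf T, (L v).index := by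
    rw [← Finset.prod_mul_distrib]
    exact Finset.prod_congr rfl fun v _ =>
      (cardClasses_top v).trans (cardClasses_mul_index v (L v) (hL v)).symm
  rw [hloc, ← hC]
  rw [heuler] at hsel
  have hF : Nat.card ((LT T).fixed M) = Nat.card {m : M // ∀ g : GQ, g • m = m} := rfl
  rw [← hF]
  linear_combination (Nat.card {φ : M →+ Additive ℚbˣ // ∀ (g : GQ) m, φ (g • m) = g • φ m} *
    ∏ v ∈ placesOf T, cardClasses M v (L v)) * hsel

/-- The local index at a finite place, in the form used with the formula. -/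
theorem card_local_classes (hp2 : p ≠ 2) (q : Nat.Primes) [Finite M] (hp : ∀ m : M, p • m = 0)
    (hM : (LD (some q)).Smooth M) :
    cardClasses M (some q) ⊤ = Nat.card ((LD (some q)).fixed M) *
      Nat.card ((LD (some q)).HomC M (Additive ℚbˣ)) * (if (q : ℕ) = p then Nat.card M else 1) := by
  rw [cardClasses_top]
  exact (euler_local hp2 q M hp hM).2.2

end Fermat.Agent.GD
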